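import Fermat.Agent.LT.T3.H315.AbelCut

/-!
# Row LT, tower T3, leaf AS.2.4c `AvgCoreC` (registry 1174) -- helper694

OFF-MAIN.  `avgCoreC694 : H315.AvgCoreC`, i.e. `CartanC → UnitaryHaarC → AvgC`
(frozen Props of `LT/T3/H315/AbelCut.lean`, helper315@4ea336ee2, sha256 446d055e, byte-identical
copy).  MATHLIB ONLY.

Proof.  `m` = the invariant probability measure carried by `U(2)`, `μ` a Haar measure of
`GL₂(ℂ)`, `f` continuous of compact support, left `U(2)`-invariant.

1. `∫ Ψ(y h) f(h) dμ = ∫ Ψ(y k h) f(h) dμ` for unitary `k` (left invariance of `μ`); integrate over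
   `m` and use Fubini on `m × μ|_{supp f}` (finite measures, bounded continuous integrand).
2. `∫ Ψ(y k h) dm(k) = sph0(chD h) Ψ(y)`: Cartan decomposition `h = k₁ t z k₂`, right invariance of
   `Ψ` under `U(2)` and the positive scalars, right invariance of `m` under `k₁`; for `d > 0` the
   mean value identity of `Ψ` at the points `y k`, integrated over `m` (Fubini on
   `m × [0, 2π] × [0, π]`), right invariance of `m` under `rotZ α · rotY β`, `∫ sin = 2`.
-/

set_option autoImplicit false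
set_option linter.style.haveILetI false

open MeasureTheory
open Fermat.Agent.LT.H556.A0 Fermat.Agent.LT.T3.AS Fermat.Agent.LT.T3.H614
open Fermat.Agent.LT.T3.H315

noncomputable section

namespace Fermat.Agent.LT.T3.H694

/-! ## Topology of `GL₂(ℂ)` -/

theorem secondCountable_mat694 : SecondCountableTopology (Matrix (Fin 2) (Fin 2) ℂ) :=
  inferInstanceAs (SecondCountableTopology (Fin 2 → Fin 2 → ℂ))

theorem secondCountable_GL694 : SecondCountableTopology (GL (Fin 2) ℂ) := by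
  haveI := secondCountable_mat694
  haveI : SecondCountableTopology (Matrix (Fin 2) (Fin 2) ℂ)ᵐᵒᵖ :=
    MulOpposite.opHomeomorph.symm.secondCountableTopology
  exact Units.isEmbedding_embedProduct.secondCountableTopology

/-! ## The unitary matrices `rotZ α * rotY β` as elements of `GL₂(ℂ)` -/

theorem diag_unitary694 (z w : ℂ) (hz : z * (starRingEnd ℂ) z = 1)
    (hw : w * (starRingEnd ℂ) w = 1) :
    (!![z, 0; 0, w] : Matrix (Fin 2) (Fin 2) ℂ) * (!![z, 0; 0, w]).conjTranspose = 1 := by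
  ext i j
  fin_cases i <;> fin_cases j <;>
    simp [Matrix.mul_apply, Fin.sum_univ_two, Matrix.conjTranspose_apply, hz, hw]

theorem rot_unitary694 (c s : ℝ) (h : c ^ 2 + s ^ 2 = 1) :
    (!![(c : ℂ), -(s : ℂ); (s : ℂ), (c : ℂ)] : Matrix (Fin 2) (Fin 2) ℂ)
      * (!![(c : ℂ), -(s : ℂ); (s : ℂ), (c : ℂ)]).conjTranspose = 1 := by
  have hcs : ((c : ℂ)) * (c : ℂ) + (s : ℂ) * (s : ℂ) = 1 := by
    have h2 : (((c ^ 2 + s ^ 2 : ℝ)) : ℂ) = 1 := by
      rw [h]; simp
    rw [← h2]
    push_cast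
    ring
  ext i j
  fin_cases i <;> fin_cases j
  · simp only [Matrix.mul_apply, Fin.sum_univ_two, Matrix.conjTranspose_apply]
    simp
    linear_combination hcs
  · simp only [Matrix.mul_apply, Fin.sum_univ_two, Matrix.conjTranspose_apply]
    simp
    ring
  · simp only [Matrix.mul_apply, Fin.sum_univ_two, Matrix.conjTranspose_apply]
    simp
    ring
  · simp only [Matrix.mul_apply, Fin.sum_univ_two, Matrix.conjTranspose_apply]
    simp
    linear_combination hcs

theorem exp_I_mul_conj694 (a : ℝ) :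
    Complex.exp (Complex.I * (a : ℂ)) * (starRingEnd ℂ) (Complex.exp (Complex.I * (a : ℂ))) = 1 := by
  rw [Complex.mul_conj, Complex.normSq_eq_norm_sq, Complex.norm_exp_I_mul_ofReal]
  simp

theorem exp_neg_I_mul_conj694 (a : ℝ) :
    Complex.exp (-(Complex.I * (a : ℂ)))
      * (starRingEnd ℂ) (Complex.exp (-(Complex.I * (a : ℂ)))) = 1 := by
  have h : -(Complex.I * (a : ℂ)) = Complex.I * ((-a : ℝ) : ℂ) := by push_cast; ring
  rw [h]
  exact exp_I_mul_conj694 (-a)

theorem rotZ_mul_conjTranspose694 (α : ℝ) : rotZ α * (rotZ α).conjTranspose = 1 :=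
  diag_unitary694 _ _ (exp_I_mul_conj694 (α / 2)) (exp_neg_I_mul_conj694 (α / 2))

theorem rotY_mul_conjTranspose694 (β : ℝ) : rotY β * (rotY β).conjTranspose = 1 :=
  rot_unitary694 _ _ (Real.cos_sq_add_sin_sq (β / 2))

/-- The matrix `rotZ α * rotY β`. -/
def eulerMat694 (α β : ℝ) : Matrix (Fin 2) (Fin 2) ℂ := rotZ α * rotY β

theorem eulerMat_mul_conjTranspose694 (α β : ℝ) :
    eulerMat694 α β * (eulerMat694 α β).conjTranspose = 1 := by
  unfold eulerMat694
  rw [Matrix.conjTranspose_mul, Matrix.mul_assoc, ← Matrix.mul_assoc (rotY β),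
    rotY_mul_conjTranspose694, Matrix.one_mul, rotZ_mul_conjTranspose694]

theorem eulerMat_conjTranspose_mul694 (α β : ℝ) :
    (eulerMat694 α β).conjTranspose * eulerMat694 α β = 1 :=
  mul_eq_one_comm.mp (eulerMat_mul_conjTranspose694 α β)

/-- `rotZ α * rotY β` as an element of `GL₂(ℂ)`. -/
def eulerGL694 (α β : ℝ) : GL (Fin 2) ℂ :=
  ⟨eulerMat694 α β, (eulerMat694 α β).conjTranspose, eulerMat_mul_conjTranspose694 α β,
    eulerMat_conjTranspose_mul694 α β⟩

theorem eulerGL_coe694 (α β : ℝ) :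
    ((eulerGL694 α β : GL (Fin 2) ℂ) : Matrix (Fin 2) (Fin 2) ℂ) = rotZ α * rotY β := rfl

theorem eulerGL_unitary694 (α β : ℝ) : IsUnitary2 (eulerGL694 α β) :=
  eulerMat_mul_conjTranspose694 α β

theorem continuous_eulerMat694 : Continuous fun p : ℝ × ℝ => eulerMat694 p.1 p.2 := by
  unfold eulerMat694
  refine Continuous.matrix_mul ?_ ?_
  · refine continuous_matrix fun i j => ?_
    fin_cases i <;> fin_cases j <;> simp [rotZ] <;> fun_prop
  · refine continuous_matrix fun i j => ?_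
    fin_cases i <;> fin_cases j <;> simp [rotY] <;> fun_prop

theorem continuous_eulerGL694 : Continuous fun p : ℝ × ℝ => eulerGL694 p.1 p.2 := by
  rw [Units.continuous_iff]
  refine ⟨continuous_eulerMat694, ?_⟩
  exact continuous_eulerMat694.matrix_conjTranspose


/-! ## Measure theory -/

section Core

local instance borelGL694 : MeasurableSpace (GL (Fin 2) ℂ) := borel (GL (Fin 2) ℂ)

local instance borelSpaceGL694 : BorelSpace (GL (Fin 2) ℂ) := ⟨rfl⟩

local instance sctGL694 : SecondCountableTopology (GL (Fin 2) ℂ) := secondCountable_GL694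

/-- A function on a product of finite measure spaces which is a.e. strongly measurable and bounded
on a product set of full measure is integrable. -/
theorem integrable_prod_of_bound694 {α β : Type*} [MeasurableSpace α] [MeasurableSpace β]
    {μ : Measure α} {ν : Measure β} [IsFiniteMeasure μ] [IsFiniteMeasure ν]
    {F : α × β → ℂ} (hF : AEStronglyMeasurable F (μ.prod ν)) (C : ℝ) {A : Set α} {B : Set β}
    (hAm : MeasurableSet A) (hBm : MeasurableSet B)
    (hA : ∀ᵐ a ∂μ, a ∈ A) (hB : ∀ᵐ b ∂ν, b ∈ B)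
    (hb : ∀ a ∈ A, ∀ b ∈ B, ‖F (a, b)‖ ≤ C) : Integrable F (μ.prod ν) := by
  refine Integrable.of_bound hF C ?_
  have hmeas : MeasurableSet {z : α × β | z.1 ∈ A ∧ z.2 ∈ B} := hAm.prod hBm
  have hae : ∀ᵐ z ∂μ.prod ν, z.1 ∈ A ∧ z.2 ∈ B := by
    rw [Measure.ae_prod_iff_ae_ae hmeas]
    filter_upwards [hA] with a ha
    filter_upwards [hB] with b hb'
    exact ⟨ha, hb'⟩
  filter_upwards [hae] with z hz
  exact hb z.1 hz.1 z.2 hz.2

/-- Right invariance of the integral with respect to `m`. -/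
theorem integral_mul_right_unitary694 {m : Measure (GL (Fin 2) ℂ)}
    (hminv : ∀ k₀ : GL (Fin 2) ℂ, IsUnitary2 k₀ →
      Measure.map (fun k => k₀ * k) m = m ∧ Measure.map (fun k => k * k₀) m = m)
    (g : GL (Fin 2) ℂ → ℂ) (hg : Continuous g) (k₀ : GL (Fin 2) ℂ) (hk₀ : IsUnitary2 k₀) :
    ∫ k, g (k * k₀) ∂m = ∫ k, g k ∂m := by
  have h2 := (hminv k₀ hk₀).2
  calc ∫ k, g (k * k₀) ∂m
      = ∫ k, g k ∂(Measure.map (fun k => k * k₀) m) :=
        (integral_map (measurable_mul_const k₀).aemeasurable hg.aestronglyMeasurable).symm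
    _ = ∫ k, g k ∂m := by rw [h2]

theorem integral_sin_rect694 :
    ∫ p : ℝ × ℝ, ((Real.sin p.2 : ℝ) : ℂ)
      ∂((volume.restrict (Set.Ioc (0 : ℝ) (2 * Real.pi))).prod
        (volume.restrict (Set.Ioc (0 : ℝ) Real.pi)))
      = ((4 * Real.pi : ℝ) : ℂ) := by
  have hint : Integrable (fun p : ℝ × ℝ => ((Real.sin p.2 : ℝ) : ℂ))
      ((volume.restrict (Set.Ioc (0 : ℝ) (2 * Real.pi))).prod
        (volume.restrict (Set.Ioc (0 : ℝ) Real.pi))) := by
    refine Integrable.of_bound ?_ 1 ?_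
    · exact (Complex.continuous_ofReal.comp (Real.continuous_sin.comp continuous_snd)).aestronglyMeasurable
    · refine Filter.Eventually.of_forall fun p => ?_
      simp only [Complex.norm_real, Real.norm_eq_abs]
      exact Real.abs_sin_le_one _
  rw [integral_prod _ hint]
  have hinner : ∫ y in Set.Ioc (0 : ℝ) Real.pi, ((Real.sin y : ℝ) : ℂ) = ((2 : ℝ) : ℂ) := by
    rw [← intervalIntegral.integral_of_le Real.pi_pos.le, intervalIntegral.integral_ofReal,
      integral_sin]
    simp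
    norm_num
  simp only [hinner, integral_const]
  rw [Measure.real, Measure.restrict_apply_univ, Real.volume_Ioc,
    ENNReal.toReal_ofReal (by linarith [Real.pi_pos]), Complex.real_smul]
  push_cast
  ring

/-- The rectangle measure of the Euler angles. -/
def rectMeas694 : Measure (ℝ × ℝ) :=
  (volume.restrict (Set.Ioc (0 : ℝ) (2 * Real.pi))).prod
    (volume.restrict (Set.Ioc (0 : ℝ) Real.pi))

instance isFiniteMeasure_rectMeas694 : IsFiniteMeasure rectMeas694 := by
  unfold rectMeas694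
  infer_instance

theorem ae_mem_rect694 :
    ∀ᵐ p ∂rectMeas694, p ∈ Set.Icc (0 : ℝ) (2 * Real.pi) ×ˢ Set.Icc (0 : ℝ) Real.pi := by
  unfold rectMeas694
  rw [Measure.prod_restrict]
  have h := ae_restrict_mem (μ := (volume : Measure ℝ).prod (volume : Measure ℝ))
    ((measurableSet_Ioc (a := (0 : ℝ)) (b := 2 * Real.pi)).prod
      (measurableSet_Ioc (a := (0 : ℝ)) (b := Real.pi)))
  filter_upwards [h] with p hp
  exact ⟨Set.Ioc_subset_Icc_self hp.1, Set.Ioc_subset_Icc_self hp.2⟩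

/-- Integrability on the rectangle of a continuous function. -/
theorem integrable_rect_of_continuous694 (g : ℝ × ℝ → ℂ) (hg : Continuous g) :
    Integrable g rectMeas694 := by
  obtain ⟨C, hC⟩ := (isCompact_Icc.prod isCompact_Icc :
    IsCompact (Set.Icc (0 : ℝ) (2 * Real.pi) ×ˢ Set.Icc (0 : ℝ) Real.pi)).exists_bound_of_continuousOn
      hg.continuousOn
  refine Integrable.of_bound hg.aestronglyMeasurable C ?_
  filter_upwards [ae_mem_rect694] with p hp
  exact hC p hp

/-- The double interval integral of the mean value property as an integral over the rectangle. -/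
theorem rect_integral_eq694 (g : ℝ × ℝ → ℂ) (hg : Continuous g) :
    ∫ p, g p ∂rectMeas694
      = ∫ α in (0 : ℝ)..(2 * Real.pi), ∫ β in (0 : ℝ)..Real.pi, g (α, β) := by
  have h := integral_prod g (integrable_rect_of_continuous694 g hg)
  unfold rectMeas694 at h ⊢
  rw [h, intervalIntegral.integral_of_le (by linarith [Real.pi_pos])]
  refine integral_congr_ae (Filter.Eventually.of_forall fun α => ?_)
  simp only
  rw [intervalIntegral.integral_of_le Real.pi_pos.le]

theorem integral_sin_rectMeas694 :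
    ∫ p : ℝ × ℝ, ((Real.sin p.2 : ℝ) : ℂ) ∂rectMeas694 = ((4 * Real.pi : ℝ) : ℂ) :=
  integral_sin_rect694

/-- **The torus step**: the `m`-average of `Ψ(y k torus(d))` is `(d / sinh d) Ψ(y)`. -/
theorem avg_torus694 {m : Measure (GL (Fin 2) ℂ)} [IsProbabilityMeasure m]
    (hKc : IsCompact {k : GL (Fin 2) ℂ | IsUnitary2 k})
    (hmK : ∀ᵐ k ∂m, IsUnitary2 k)
    (hminv : ∀ k₀ : GL (Fin 2) ℂ, IsUnitary2 k₀ →
      Measure.map (fun k => k₀ * k) m = m ∧ Measure.map (fun k => k * k₀) m = m)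
    {Ψ : GL (Fin 2) ℂ → ℂ} (hΨ : IsLocSph0 Ψ) (y t : GL (Fin 2) ℂ) (d : ℝ) (hd : 0 < d)
    (ht : (t : Matrix (Fin 2) (Fin 2) ℂ) = torus d) :
    ∫ k, Ψ (y * k * t) ∂m = ((d / Real.sinh d : ℝ) : ℂ) * Ψ y := by
  have hKm : MeasurableSet {k : GL (Fin 2) ℂ | IsUnitary2 k} := hKc.isClosed.measurableSet
  let Gf : GL (Fin 2) ℂ → ℝ × ℝ → ℂ := fun k p =>
    Ψ (y * k * (eulerGL694 p.1 p.2 * t)) * ((Real.sin p.2 : ℝ) : ℂ)
  have hmap : Continuous fun z : GL (Fin 2) ℂ × (ℝ × ℝ) =>
      y * z.1 * (eulerGL694 z.2.1 z.2.2 * t) := by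
    have he : Continuous fun z : GL (Fin 2) ℂ × (ℝ × ℝ) => eulerGL694 z.2.1 z.2.2 :=
      continuous_eulerGL694.comp continuous_snd
    exact (continuous_const.mul continuous_fst).mul (he.mul continuous_const)
  have hGcont : Continuous (Function.uncurry Gf) := by
    have h1 : Continuous fun z : GL (Fin 2) ℂ × (ℝ × ℝ) =>
        Ψ (y * z.1 * (eulerGL694 z.2.1 z.2.2 * t)) := hΨ.cont.comp hmap
    have h2 : Continuous fun z : GL (Fin 2) ℂ × (ℝ × ℝ) => ((Real.sin z.2.2 : ℝ) : ℂ) :=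
      Complex.continuous_ofReal.comp
        (Real.continuous_sin.comp (continuous_snd.comp continuous_snd))
    exact h1.mul h2
  have hGk : ∀ k, Continuous (Gf k) := fun k => hGcont.uncurry_left k
  obtain ⟨C, hC⟩ := (hKc.prod (isCompact_Icc.prod isCompact_Icc :
    IsCompact (Set.Icc (0 : ℝ) (2 * Real.pi) ×ˢ Set.Icc (0 : ℝ) Real.pi))).exists_bound_of_continuousOn
      hGcont.continuousOn
  have hint : Integrable (Function.uncurry Gf) (m.prod rectMeas694) :=
    integrable_prod_of_bound694 hGcont.aestronglyMeasurable C hKm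
      (measurableSet_Icc.prod measurableSet_Icc) hmK ae_mem_rect694
      (fun a ha b hb => hC (a, b) ⟨ha, hb⟩)
  -- the mean value property at the points `y k`
  have hmvp : ∀ k, IsUnitary2 k →
      ∫ p, Gf k p ∂rectMeas694 = ((4 * Real.pi * (d / Real.sinh d) : ℝ) : ℂ) * Ψ y := by
    intro k hk
    have hY := hΨ.mean d hd (fun α β => eulerGL694 α β * t)
      (by intro α β; rw [Units.val_mul, eulerGL_coe694, ht]) (y * k)
    rw [hΨ.unitary k y hk] at hY
    rw [rect_integral_eq694 (Gf k) (hGk k)]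
    exact hY
  have h1 : ∫ k, ∫ p, Gf k p ∂rectMeas694 ∂m
      = ((4 * Real.pi * (d / Real.sinh d) : ℝ) : ℂ) * Ψ y := by
    rw [integral_congr_ae (hmK.mono fun k hk => hmvp k hk)]
    simp
  have h2 : ∫ k, ∫ p, Gf k p ∂rectMeas694 ∂m = ∫ p, ∫ k, Gf k p ∂m ∂rectMeas694 :=
    integral_integral_swap hint
  have hcont0 : Continuous fun k : GL (Fin 2) ℂ => Ψ (y * k * t) :=
    hΨ.cont.comp ((continuous_const.mul continuous_id).mul continuous_const)
  have h3 : ∀ p : ℝ × ℝ, ∫ k, Gf k p ∂m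
      = (∫ k, Ψ (y * k * t) ∂m) * ((Real.sin p.2 : ℝ) : ℂ) := by
    intro p
    have hr := integral_mul_right_unitary694 hminv (fun k => Ψ (y * k * t)) hcont0
      (eulerGL694 p.1 p.2) (eulerGL_unitary694 p.1 p.2)
    simp only [Gf]
    rw [integral_mul_const, ← hr]
    congr 1
    refine integral_congr_ae (Filter.Eventually.of_forall fun k => ?_)
    simp only [mul_assoc]
  rw [h2] at h1
  simp_rw [h3] at h1
  rw [integral_const_mul, integral_sin_rectMeas694] at h1
  have hpi : ((4 * Real.pi : ℝ) : ℂ) ≠ 0 := by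
    exact_mod_cast (by positivity : (4 * Real.pi : ℝ) ≠ 0)
  have h4 : (∫ k, Ψ (y * k * t) ∂m) * ((4 * Real.pi : ℝ) : ℂ)
      = (((d / Real.sinh d : ℝ) : ℂ) * Ψ y) * ((4 * Real.pi : ℝ) : ℂ) := by
    rw [h1]
    push_cast
    ring
  exact mul_right_cancel₀ hpi h4

theorem sph0_cosh_zero694 : sph0 (Real.cosh 0) = 1 := by
  unfold sph0
  rw [if_pos (by simp)]

theorem sph0_cosh_pos694 {d : ℝ} (hd : 0 < d) : sph0 (Real.cosh d) = d / Real.sinh d := by
  unfold sph0
  have h1 : 1 < Real.cosh d := Real.one_lt_cosh.mpr hd.ne'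
  rw [if_neg (not_le.mpr h1), Real.arcosh_cosh hd.le]
  have h2 : Real.cosh d ^ 2 - 1 = Real.sinh d ^ 2 := by
    rw [Real.cosh_sq]; ring
  rw [h2, Real.sqrt_sq (Real.sinh_nonneg_iff.mpr hd.le)]

theorem torus_zero694 : torus 0 = (1 : Matrix (Fin 2) (Fin 2) ℂ) := by
  ext i j
  fin_cases i <;> fin_cases j <;> simp [torus]

/-- **The `K`-average**: `∫ Ψ(y k h) dm(k) = sph0(chD h) Ψ(y)`. -/
theorem avg_point694 (hCartan : CartanC) {m : Measure (GL (Fin 2) ℂ)} [IsProbabilityMeasure m]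
    (hKc : IsCompact {k : GL (Fin 2) ℂ | IsUnitary2 k})
    (hmK : ∀ᵐ k ∂m, IsUnitary2 k)
    (hminv : ∀ k₀ : GL (Fin 2) ℂ, IsUnitary2 k₀ →
      Measure.map (fun k => k₀ * k) m = m ∧ Measure.map (fun k => k * k₀) m = m)
    {Ψ : GL (Fin 2) ℂ → ℂ} (hΨ : IsLocSph0 Ψ) (y h : GL (Fin 2) ℂ) :
    ∫ k, Ψ (y * k * h) ∂m
      = ((sph0 (chD614 (h : Matrix (Fin 2) (Fin 2) ℂ)) : ℝ) : ℂ) * Ψ y := by
  obtain ⟨k₁, k₂, t, z, d, r, hk₁, hk₂, hd, hr, hch, ht, hz, hh⟩ := hCartan h
  -- remove `k₂` and `z`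
  have hstep1 : ∀ k : GL (Fin 2) ℂ, Ψ (y * k * h) = Ψ (y * (k * k₁) * t) := by
    intro k
    have e1 : y * k * h = (y * (k * k₁) * t * z) * k₂ := by
      rw [hh]; simp only [mul_assoc]
    rw [e1, hΨ.unitary k₂ _ hk₂, hΨ.scalar z r hr hz]
  have hcont0 : Continuous fun k : GL (Fin 2) ℂ => Ψ (y * k * t) :=
    hΨ.cont.comp ((continuous_const.mul continuous_id).mul continuous_const)
  have hstep2 : ∫ k, Ψ (y * k * h) ∂m = ∫ k, Ψ (y * k * t) ∂m := by
    rw [← integral_mul_right_unitary694 hminv (fun k => Ψ (y * k * t)) hcont0 k₁ hk₁]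
    exact integral_congr_ae (Filter.Eventually.of_forall hstep1)
  rw [hstep2, ← hch]
  rcases hd.eq_or_lt with h0 | hpos
  · -- `d = 0`
    subst h0
    have ht1 : t = 1 := by
      apply Units.ext
      rw [ht, torus_zero694]; rfl
    subst ht1
    rw [sph0_cosh_zero694]
    have : ∀ᵐ k ∂m, Ψ (y * k * 1) = Ψ y := by
      filter_upwards [hmK] with k hk
      rw [mul_one, hΨ.unitary k y hk]
    rw [integral_congr_ae this]
    simp
  · rw [sph0_cosh_pos694 hpos]
    exact avg_torus694 hKc hmK hminv hΨ y t d hpos ht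

/-- **`AvgCoreC`** (registry 1174): `CartanC → UnitaryHaarC → AvgC`. -/
theorem avgCoreC694 : AvgCoreC := by
  intro hCartan hU
  obtain ⟨hKc, m, hm, hmK, hminv⟩ := hU
  intro μ hμ Ψ hΨ f hf hfs hfK y
  haveI := hm
  haveI := hμ
  have hKm : MeasurableSet {k : GL (Fin 2) ℂ | IsUnitary2 k} := hKc.isClosed.measurableSet
  -- the support of `f`
  have hS : IsCompact (tsupport f) := hfs
  have hSm : MeasurableSet (tsupport f) := (isClosed_tsupport f).measurableSet
  haveI : IsFiniteMeasure (μ.restrict (tsupport f)) :=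
    ⟨by rw [Measure.restrict_apply_univ]; exact hS.measure_lt_top⟩
  have hsupp : ∀ g : GL (Fin 2) ℂ → ℂ,
      ∫ h in tsupport f, g h * f h ∂μ = ∫ h, g h * f h ∂μ := by
    intro g
    refine setIntegral_eq_integral_of_forall_compl_eq_zero fun h hh => ?_
    rw [image_eq_zero_of_notMem_tsupport hh, mul_zero]
  -- step 1: translation by a unitary `k`
  have htrans : ∀ k : GL (Fin 2) ℂ, IsUnitary2 k →
      ∫ h in tsupport f, Ψ (y * k * h) * f h ∂μ = ∫ h, Ψ (y * h) * f h ∂μ := by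
    intro k hk
    rw [hsupp (fun h => Ψ (y * k * h))]
    have h1 := integral_mul_left_eq_self (μ := μ) (fun h => Ψ (y * h) * f h) k
    rw [← h1]
    refine integral_congr_ae (Filter.Eventually.of_forall fun h => ?_)
    simp only [hfK k h hk, mul_assoc]
  -- step 2: Fubini
  let Ff : GL (Fin 2) ℂ → GL (Fin 2) ℂ → ℂ := fun k h => Ψ (y * k * h) * f h
  have hFcont : Continuous (Function.uncurry Ff) := by
    have h1 : Continuous fun z : GL (Fin 2) ℂ × GL (Fin 2) ℂ => Ψ (y * z.1 * z.2) :=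
      hΨ.cont.comp ((continuous_const.mul continuous_fst).mul continuous_snd)
    exact h1.mul (hf.comp continuous_snd)
  obtain ⟨C, hC⟩ := (hKc.prod hS).exists_bound_of_continuousOn hFcont.continuousOn
  have hint : Integrable (Function.uncurry Ff) (m.prod (μ.restrict (tsupport f))) :=
    integrable_prod_of_bound694 hFcont.aestronglyMeasurable C hKm hSm hmK
      (ae_restrict_mem hSm) (fun a ha b hb => hC (a, b) ⟨ha, hb⟩)
  have hswap : ∫ k, ∫ h, Ff k h ∂(μ.restrict (tsupport f)) ∂m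
      = ∫ h, ∫ k, Ff k h ∂m ∂(μ.restrict (tsupport f)) := integral_integral_swap hint
  have hleft : ∫ k, ∫ h, Ff k h ∂(μ.restrict (tsupport f)) ∂m = ∫ h, Ψ (y * h) * f h ∂μ := by
    rw [integral_congr_ae (hmK.mono fun k hk => htrans k hk)]
    simp
  have hright : ∀ h : GL (Fin 2) ℂ, ∫ k, Ff k h ∂m
      = (((sph0 (chD614 (h : Matrix (Fin 2) (Fin 2) ℂ)) : ℝ) : ℂ) * Ψ y) * f h := by
    intro h
    simp only [Ff]
    rw [integral_mul_const, avg_point694 hCartan hKc hmK hminv hΨ y h]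
  rw [← hleft, hswap]
  simp_rw [hright]
  rw [hsupp (fun h => ((sph0 (chD614 (h : Matrix (Fin 2) (Fin 2) ℂ)) : ℝ) : ℂ) * Ψ y),
    ← integral_const_mul]
  refine integral_congr_ae (Filter.Eventually.of_forall fun h => ?_)
  simp only
  ring

end Core

end Fermat.Agent.LT.T3.H694

end
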